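import Fermat.Statements.S02
-- import your own Fermat.Agent.* helpers here

set_option autoImplicit false
open FreyPackage

namespace Fermat.Agent.S02

/-- Coprime case, with `b` even: fix the residue of `a` mod 4 by a global sign change. -/
theorem of_coprime_even (a b c : ℤ) (ha : a ≠ 0) (hb : b ≠ 0) (hc : c ≠ 0) (p : ℕ)
    (pp : p.Prime) (hp5 : 5 ≤ p) (H : a ^ p + b ^ p = c ^ p) (hab : gcd a b = 1)
    (hb2 : (2 : ℤ) ∣ b) : Nonempty FreyPackage := by
  have p_odd : Odd p := pp.odd_of_ne_two (by omega)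
  have hb2' : (b : ZMod 2) = 0 := (ZMod.intCast_zmod_eq_zero_iff_dvd b 2).2 hb2
  -- `a` is odd
  have ha_odd : ¬ (2 : ℤ) ∣ a := by
    intro h2a
    have h : (2 : ℤ) ∣ gcd a b := dvd_gcd h2a hb2
    rw [hab] at h
    norm_num at h
  have hmod : a % 4 = 1 ∨ a % 4 = 3 := by omega
  rcases hmod with h1 | h3
  · -- replace (a, b, c) by (-a, -b, -c)
    refine ⟨{
      a := -a, b := -b, c := -c
      ha0 := neg_ne_zero.mpr ha
      hb0 := neg_ne_zero.mpr hb
      hc0 := neg_ne_zero.mpr hc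
      p := p, pp := pp, hp5 := hp5
      hFLT := by
        rw [p_odd.neg_pow, p_odd.neg_pow, p_odd.neg_pow, ← H]; ring
      hgcdab := by
        rw [gcd_neg, neg_gcd]; exact hab
      ha4 := by
        have h4 : ((-a : ℤ) : ZMod 4) = ((3 : ℤ) : ZMod 4) := by
          rw [ZMod.intCast_eq_intCast_iff_dvd_sub]
          omega
        simpa using h4
      hb2 := by
        rw [ZMod.intCast_zmod_eq_zero_iff_dvd]
        exact (dvd_neg).2 hb2 }⟩
  · refine ⟨{
      a := a, b := b, c := c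
      ha0 := ha, hb0 := hb, hc0 := hc
      p := p, pp := pp, hp5 := hp5
      hFLT := H
      hgcdab := hab
      ha4 := by
        have h4 : ((a : ℤ) : ZMod 4) = ((3 : ℤ) : ZMod 4) := by
          rw [ZMod.intCast_eq_intCast_iff_dvd_sub]
          omega
        simpa using h4
      hb2 := hb2' }⟩

/-- Coprime case: permute the variables so that `b` is even. -/
theorem of_coprime (a b c : ℤ) (ha : a ≠ 0) (hb : b ≠ 0) (hc : c ≠ 0) (p : ℕ)
    (pp : p.Prime) (hp5 : 5 ≤ p) (H : a ^ p + b ^ p = c ^ p) (hab : gcd a b = 1) :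
    Nonempty FreyPackage := by
  have p_odd : Odd p := pp.odd_of_ne_two (by omega)
  have hp0 : p ≠ 0 := by omega
  by_cases hb2 : (2 : ℤ) ∣ b
  · exact of_coprime_even a b c ha hb hc p pp hp5 H hab hb2
  by_cases ha2 : (2 : ℤ) ∣ a
  · exact of_coprime_even b a c hb ha hc p pp hp5 (by rw [add_comm]; exact H)
      (by rw [gcd_comm]; exact hab) ha2
  -- both `a` and `b` are odd, so `c` is even
  have hc2 : (2 : ℤ) ∣ c := by
    have hap : ¬ (2 : ℤ) ∣ a ^ p := fun h => ha2 (Int.prime_two.dvd_of_dvd_pow h)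
    have hbp : ¬ (2 : ℤ) ∣ b ^ p := fun h => hb2 (Int.prime_two.dvd_of_dvd_pow h)
    have hcp : (2 : ℤ) ∣ c ^ p := by
      rw [← H]; omega
    exact Int.prime_two.dvd_of_dvd_pow hcp
  have hac : gcd a c = 1 := by
    rw [← gcdab_eq_gcdac (Nat.pos_of_ne_zero hp0) H]; exact hab
  refine of_coprime_even a (-c) (-b) ha (neg_ne_zero.mpr hc) (neg_ne_zero.mpr hb) p pp hp5 ?_ ?_
    ((dvd_neg).2 hc2)
  · rw [p_odd.neg_pow, p_odd.neg_pow, ← H]; ring
  · rw [gcd_neg]; exact hac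

theorem result (a b c : ℤ) (ha : a ≠ 0) (hb : b ≠ 0) (hc : c ≠ 0) (p : ℕ) (pp : p.Prime) (hp5 : 5 ≤ p) (H : a ^ p + b ^ p = c ^ p) : Nonempty FreyPackage := by
  have hp0 : p ≠ 0 := by omega
  -- divide out by `d = gcd a b`
  obtain ⟨a', ha'⟩ : gcd a b ∣ a := gcd_dvd_left a b
  obtain ⟨b', hb'⟩ : gcd a b ∣ b := gcd_dvd_right a b
  have hd0 : gcd a b ≠ 0 := fun h => ha ((gcd_eq_zero_iff a b).1 h).1
  have hdc : gcd a b ∣ c := by
    rw [← Int.pow_dvd_pow_iff hp0, ← H]
    exact dvd_add (pow_dvd_pow_of_dvd (gcd_dvd_left a b) p) (pow_dvd_pow_of_dvd (gcd_dvd_right a b) p)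
  obtain ⟨c', hc'⟩ := hdc
  set d := gcd a b with hd
  have ha'0 : a' ≠ 0 := by rintro rfl; exact ha (by rw [ha']; simp)
  have hb'0 : b' ≠ 0 := by rintro rfl; exact hb (by rw [hb']; simp)
  have hc'0 : c' ≠ 0 := by rintro rfl; exact hc (by rw [hc']; simp)
  have H' : a' ^ p + b' ^ p = c' ^ p := by
    have hdp : d ^ p ≠ 0 := pow_ne_zero p hd0
    apply mul_left_cancel₀ hdp
    rw [mul_add, ← mul_pow, ← mul_pow, ← mul_pow, ← ha', ← hb', ← hc']
    exact H
  have hab' : gcd a' b' = 1 := by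
    have h1 : gcd (d * a') (d * b') = normalize d * gcd a' b' := gcd_mul_left d a' b'
    rw [← ha', ← hb'] at h1
    have h2 : normalize d = d := by rw [hd]; exact normalize_gcd a b
    rw [h2] at h1
    have h3 : d * 1 = d * gcd a' b' := by rw [mul_one]; exact h1
    exact (mul_left_cancel₀ hd0 h3).symm
  exact of_coprime a' b' c' ha'0 hb'0 hc'0 p pp hp5 H' hab'

end Fermat.Agent.S02
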