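-- Statement S07: every weight-2 cusp form of level Γ₀(2) is zero.
-- Proof: Sturm bound for Γ₀(N) from the prelude, with N = 2 and k = 2.  The index of Γ₀(2) in
-- SL(2, ℤ) is at most 3 (three explicit cosets), so the bound `(2 * index) / 12` is `0`, and the
-- zeroth q-expansion coefficient of a cusp form vanishes.
import Fermat.Statements.S07
import Fermat.Prelude.Thm_ModularForm_sturm_bound_Gamma0
import Fermat.Prelude.Thm_CongruenceSubgroup_one_mem_strictPeriods_Gamma0

set_option autoImplicit false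
open WeierstrassCurve WeierstrassCurve.Affine WeierstrassCurve.Affine.Point
open CuspForm ModularFormClass UpperHalfPlane
open ModularForm
open scoped MatrixGroups

namespace Fermat.Agent.S07

/-- The matrix `[[1,0],[1,1]]` in `SL(2, ℤ)`. -/
def lowerUnip : SL(2, ℤ) := ⟨!![1, 0; 1, 1], by simp [Matrix.det_fin_two]⟩

theorem inv_mul_apply_one_zero (h g : SL(2, ℤ)) :
    (h⁻¹ * g) 1 0 = h 0 0 * g 1 0 - h 1 0 * g 0 0 := by
  rw [Matrix.SpecialLinearGroup.coe_mul, Matrix.SpecialLinearGroup.coe_inv,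
    Matrix.adjugate_fin_two, Matrix.mul_apply, Fin.sum_univ_two]
  simp
  ring

theorem inv_mul_mem_gamma0_two_iff (h g : SL(2, ℤ)) :
    h⁻¹ * g ∈ CongruenceSubgroup.Gamma0 2 ↔ (2 : ℤ) ∣ h 0 0 * g 1 0 - h 1 0 * g 0 0 := by
  rw [CongruenceSubgroup.Gamma0_mem, inv_mul_apply_one_zero]
  exact (ZMod.intCast_zmod_eq_zero_iff_dvd _ 2)

/-- `Γ₀(2)` has index at most `3` in `SL(2, ℤ)`: the cosets of `1`, `S` and `[[1,0],[1,1]]`
cover everything. -/
theorem gamma0_two_index_le : (CongruenceSubgroup.Gamma0 2).index ≤ 3 := by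
  classical
  let F : Fin 3 → SL(2, ℤ) ⧸ CongruenceSubgroup.Gamma0 2 :=
    ![((1 : SL(2, ℤ)) : SL(2, ℤ) ⧸ CongruenceSubgroup.Gamma0 2),
      ((ModularGroup.S : SL(2, ℤ)) : SL(2, ℤ) ⧸ CongruenceSubgroup.Gamma0 2),
      ((lowerUnip : SL(2, ℤ)) : SL(2, ℤ) ⧸ CongruenceSubgroup.Gamma0 2)]
  have hF : Function.Surjective F := by
    intro q
    induction q using QuotientGroup.induction_on with
    | H g =>
      by_cases hc : (2 : ℤ) ∣ g 1 0
      · refine ⟨0, ?_⟩
        show ((1 : SL(2, ℤ)) : SL(2, ℤ) ⧸ CongruenceSubgroup.Gamma0 2) = g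
        rw [QuotientGroup.eq, inv_mul_mem_gamma0_two_iff]
        have h00 : (1 : SL(2, ℤ)) 0 0 = 1 := by simp
        have h10 : (1 : SL(2, ℤ)) 1 0 = 0 := by simp
        rw [h00, h10]
        omega
      · by_cases ha : (2 : ℤ) ∣ g 0 0
        · refine ⟨1, ?_⟩
          show ((ModularGroup.S : SL(2, ℤ)) : SL(2, ℤ) ⧸ CongruenceSubgroup.Gamma0 2) = g
          rw [QuotientGroup.eq, inv_mul_mem_gamma0_two_iff]
          have h00 : (ModularGroup.S : SL(2, ℤ)) 0 0 = 0 := by simp [ModularGroup.S]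
          have h10 : (ModularGroup.S : SL(2, ℤ)) 1 0 = 1 := by simp [ModularGroup.S]
          rw [h00, h10]
          omega
        · refine ⟨2, ?_⟩
          show ((lowerUnip : SL(2, ℤ)) : SL(2, ℤ) ⧸ CongruenceSubgroup.Gamma0 2) = g
          rw [QuotientGroup.eq, inv_mul_mem_gamma0_two_iff]
          have h00 : (lowerUnip : SL(2, ℤ)) 0 0 = 1 := by simp [lowerUnip]
          have h10 : (lowerUnip : SL(2, ℤ)) 1 0 = 1 := by simp [lowerUnip]
          rw [h00, h10]
          omega
  have := Nat.card_le_card_of_surjective F hF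
  simpa [Subgroup.index] using this

theorem result (f : CuspForm (CongruenceSubgroup.Gamma0 2) 2) : f = 0 := by
  have h0 : (ModularFormClass.modularForm f :
      ModularForm (Subgroup.map (Matrix.SpecialLinearGroup.mapGL ℝ)
        (CongruenceSubgroup.Gamma0 2)) 2) = 0 := by
    apply ModularForm.sturm_bound_Gamma0 2
    intro n hn
    have hidx := gamma0_two_index_le
    have hn0 : n = 0 := by
      have h12 : ((2 : ℤ) * (((CongruenceSubgroup.Gamma0 2).index : ℕ) : ℤ)).toNat
          = 2 * (CongruenceSubgroup.Gamma0 2).index := by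
        omega
      rw [h12] at hn
      omega
    subst hn0
    exact CuspFormClass.qExpansion_coeff_zero f one_pos
      (CongruenceSubgroup.one_mem_strictPeriods_Gamma0 2)
  ext z
  have hz := DFunLike.congr_fun h0 z
  simpa using hz

end Fermat.Agent.S07
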