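-- Statement S08: every weight-2 cusp form of level Γ₀(1) is zero.
-- Proof: Sturm bound for Γ₀(N) from the prelude, with N = 1 and k = 2: the bound
-- `(2 * index) / 12` is `0`, and the zeroth q-expansion coefficient of a cusp form vanishes.
import Fermat.Statements.S08
import Fermat.Prelude.Thm_ModularForm_sturm_bound_Gamma0
import Fermat.Prelude.Thm_CongruenceSubgroup_one_mem_strictPeriods_Gamma0

set_option autoImplicit false
open WeierstrassCurve WeierstrassCurve.Affine WeierstrassCurve.Affine.Point
open CuspForm ModularFormClass UpperHalfPlane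
open ModularForm

namespace Fermat.Agent.S08

theorem gamma0_one_eq_top : CongruenceSubgroup.Gamma0 1 = ⊤ := by
  ext A
  simp [eq_iff_true_of_subsingleton]

theorem gamma0_one_index : (CongruenceSubgroup.Gamma0 1).index = 1 := by
  rw [gamma0_one_eq_top]
  exact Subgroup.index_top

theorem result (f : CuspForm (CongruenceSubgroup.Gamma0 1) 2) : f = 0 := by
  have h0 : (ModularFormClass.modularForm f :
      ModularForm (Subgroup.map (Matrix.SpecialLinearGroup.mapGL ℝ)
        (CongruenceSubgroup.Gamma0 1)) 2) = 0 := by
    apply ModularForm.sturm_bound_Gamma0 1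
    intro n hn
    rw [gamma0_one_index] at hn
    have hn0 : n = 0 := by
      have h12 : ((2 : ℤ) * ((1 : ℕ) : ℤ)).toNat / 12 = 0 := by decide
      omega
    subst hn0
    exact CuspFormClass.qExpansion_coeff_zero f one_pos
      (CongruenceSubgroup.one_mem_strictPeriods_Gamma0 1)
  ext z
  have hz := DFunLike.congr_fun h0 z
  simpa using hz

end Fermat.Agent.S08
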