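-- Statement S10 (row 9): a Frey package with `P.p ∈ {5, 7, 13}` has no Galois-stable cofixed line.
-- Proof: there is no Frey package with `P.p ∈ {5, 7, 13}` at all, because a Frey package carries
-- a nontrivial coprime integer solution of `a ^ p + b ^ p = c ^ p`, and Fermat's Last Theorem
-- holds for the regular primes 5, 7, 13 (Kummer): the first case is Sophie Germain's theorem,
-- the second case is Kummer's descent in the ring of integers of the p-th cyclotomic field,
-- which is a principal ideal domain and satisfies Kummer's lemma on units.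
import Fermat.Statements.S10
import Fermat.Agent.S11.Wiring
import Fermat.Agent.S11.SophieGermain
import Fermat.Agent.S11.PID7
import Fermat.Agent.S11.PIDThirteen
import Fermat.Agent.S11.Kummer5
import Fermat.Agent.S11.Kummer7
import Fermat.Agent.S11.Kummer13

set_option autoImplicit false
open WeierstrassCurve WeierstrassCurve.Affine WeierstrassCurve.Affine.Point
open CuspForm ModularFormClass UpperHalfPlane
open FreyPackage

namespace Fermat.Agent.S10

open Fermat.Agent.S11 in
theorem result (P : FreyPackage) (hp : P.p = 5 ∨ P.p = 7 ∨ P.p = 13) : ¬ HasGaloisStableCofixedLine (K := AlgebraicClosure ℚ) ℚ P.freyCurve P.p := by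
  exfalso
  have hab : IsCoprime P.a P.b := by
    rw [Int.isCoprime_iff_gcd_eq_one]
    have h := P.hgcdab
    rw [← Int.coe_gcd] at h
    exact_mod_cast h
  have hFLT := P.hFLT
  rcases hp with hp | hp | hp
  · rw [hp] at hFLT
    have : Fact (Nat.Prime 5) := ⟨by norm_num⟩
    have : IsCyclotomicExtension {5} ℚ (CyclotomicField 5 ℚ) :=
      CyclotomicField.isCyclotomicExtension 5 ℚ
    exact flt_of_pieces 5 (by norm_num) (CyclotomicField 5 ℚ)
      (IsCyclotomicExtension.Rat.five_pid _) (Kummer.kummer_lemma_5 _)
      (fun a b c hab h => by exact_mod_cast SophieGermain.caseI_5 a b c hab h)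
      P.a P.b P.c P.ha0 P.hb0 P.hc0 hab hFLT
  · rw [hp] at hFLT
    have : Fact (Nat.Prime 7) := ⟨by norm_num⟩
    have : IsCyclotomicExtension {7} ℚ (CyclotomicField 7 ℚ) :=
      CyclotomicField.isCyclotomicExtension 7 ℚ
    exact flt_of_pieces 7 (by norm_num) (CyclotomicField 7 ℚ)
      (PID.pid_seven _) (Kummer.kummer_lemma_7 _)
      (fun a b c hab h => by exact_mod_cast SophieGermain.caseI_7 a b c hab h)
      P.a P.b P.c P.ha0 P.hb0 P.hc0 hab hFLT
  · rw [hp] at hFLT
    have : Fact (Nat.Prime 13) := ⟨by norm_num⟩
    have : IsCyclotomicExtension {13} ℚ (CyclotomicField 13 ℚ) :=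
      CyclotomicField.isCyclotomicExtension 13 ℚ
    exact flt_of_pieces 13 (by norm_num) (CyclotomicField 13 ℚ)
      (PID.pid_thirteen _) (Kummer.kummer_lemma_13 _)
      (fun a b c hab h => by exact_mod_cast SophieGermain.caseI_13 a b c hab h)
      P.a P.b P.c P.ha0 P.hb0 P.hc0 hab hFLT

end Fermat.Agent.S10
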