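-- Statement S11 (row 10): a Frey package with `P.p = 11` has no Galois-stable cofixed line.
-- Proof: there is no Frey package with `P.p = 11` at all, because a Frey package carries a
-- nontrivial coprime integer solution of `a ^ 11 + b ^ 11 = c ^ 11`, and Fermat's Last Theorem
-- holds for the regular prime 11 (Kummer): the first case is Sophie Germain's theorem, the
-- second case is Kummer's descent in the ring of integers of the 11-th cyclotomic field, which
-- is a principal ideal domain and satisfies Kummer's lemma on units.
import Fermat.Statements.S11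
import Fermat.Agent.S11.Wiring
import Fermat.Agent.S11.SophieGermain
import Fermat.Agent.S11.PIDEleven
import Fermat.Agent.S11.Kummer11

set_option autoImplicit false
open WeierstrassCurve WeierstrassCurve.Affine WeierstrassCurve.Affine.Point
open CuspForm ModularFormClass UpperHalfPlane
open FreyPackage

namespace Fermat.Agent.S11

theorem result (P : FreyPackage) (hp : P.p = 11) : ¬ HasGaloisStableCofixedLine (K := AlgebraicClosure ℚ) ℚ P.freyCurve P.p := by
  exfalso
  have : Fact (Nat.Prime 11) := ⟨by norm_num⟩
  have : IsCyclotomicExtension {11} ℚ (CyclotomicField 11 ℚ) :=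
    CyclotomicField.isCyclotomicExtension 11 ℚ
  have hab : IsCoprime P.a P.b := by
    rw [Int.isCoprime_iff_gcd_eq_one]
    have h := P.hgcdab
    rw [← Int.coe_gcd] at h
    exact_mod_cast h
  have hFLT := P.hFLT
  rw [hp] at hFLT
  exact flt_of_pieces 11 (by norm_num) (CyclotomicField 11 ℚ) (PID.pid_eleven _)
    (Kummer.kummer_lemma_11 _)
    (fun a b c hab h => by exact_mod_cast SophieGermain.caseI_11 a b c hab h)
    P.a P.b P.c P.ha0 P.hb0 P.hc0 hab hFLT

end Fermat.Agent.S11
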