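-- Statement S13: a reducible mod-`p` representation of the Frey curve has a Galois-stable
-- cofixed line.  Assembly of the S13 pieces: WIRE (`WireFrey`), (T) and (Xp) (`DPGlue`),
-- (K), (U2), (Up) (`InstUFinal`), (R2) (`R2`), (M) (`MinkWire`).
import Fermat.Statements.S13
import Fermat.Agent.S13.WireFrey
import Fermat.Agent.S13.MinkWire
import Fermat.Agent.S13.InstUFinal
import Fermat.Agent.S13.DPGlue
import Fermat.Agent.S13.R2

set_option autoImplicit false
open WeierstrassCurve WeierstrassCurve.Affine WeierstrassCurve.Affine.Point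
open CuspForm ModularFormClass UpperHalfPlane
open FreyPackage

namespace Fermat.Agent.S13

theorem result (P : FreyPackage) (hred : ¬ GaloisRepIsIrreducible (K := AlgebraicClosure ℚ) ℚ P.freyCurve P.p) : HasGaloisStableCofixedLine (K := AlgebraicClosure ℚ) ℚ P.freyCurve P.p :=
  WireFrey.frey_cofixedLine_kernel P (DPGlue.frey_T P) (InstUFinal.hK P) (InstUFinal.hU2 P)
    (InstUFinal.hUp_kernel P)
    (fun A hA hall => DPGlue.frey_Xp P A hA fun Q => (inKer_iff_kernel A _).mpr (hall Q))
    (R2.result P) MinkWire.hM hred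

end Fermat.Agent.S13
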