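import Fermat.Statements.S14
import Fermat.Agent.S14.Assembly
import Fermat.Agent.S14.GSplit
import Fermat.Agent.S14.GDatum
import Fermat.Agent.S14.GKummer
import Fermat.Agent.S14.KC3
import Fermat.Agent.S14.L2
import Fermat.Agent.S14.EtaEigen
import Fermat.Agent.S14.UnitDim
import Fermat.Agent.S14.ClassChar
import Fermat.Agent.S14.ThaineF
import Fermat.Agent.S14.ThaineK
import Fermat.Agent.S14.ThaineCor
import Fermat.Agent.S14.S2Upper
import Fermat.Agent.S14.XLowerFinal
import Fermat.Agent.S14.XSubS2
import Fermat.Agent.S14.CaseA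
import Fermat.Agent.S14.CaseB

set_option autoImplicit false
open ExtCitation

namespace Fermat.Agent.S14

theorem result {p : ℕ} [Fact p.Prime] (h3 : 3 ≤ p) :
    ExtCitation.ExtVanishingCts p :=
  extVanishingCts_of_all p h3 (gSplit p) (gDatum p) (gKummer p) (kummerCore_three p)
    (fun h5 K _ _ _ ζ hζ =>
      have hL : HasL2 p hζ := hasL2 p h5 hζ
      have hE : EtaEigen p hζ := etaEigen p h3 hζ
      { hasL2 := hL
        etaEigen := hE
        unitDim := unitDim_of_hasL2 p hζ h3 hL hE
        classChar := classChar p hζ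
        thaineRel := thaineK p hζ (thaineF p hζ h3)
        thaineCor := thaineCor p hζ
        s2Upper := s2Upper_of p hζ h5 hL hE
        xLower := xLower p hζ
        xSubS2 := XS.xSubS2 p hζ
        caseA := caseA p hζ h5
        caseB := caseB p hζ })

end Fermat.Agent.S14
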