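-- Statement S16 (row 15): the Eisenstein quotient of the Hecke lattice algebra of prime level `p`
-- has order the numerator of `(p - 1) / 12`.
-- Proof: `Reduce` (duality: the quotient is cyclic of order the largest modulus of an Eisenstein
-- congruence), `LBFFinal` (lower bound: products of weight one Eisenstein series and Dedekind sums),
-- `UB` (upper bound: norm to level one and the Sturm bound modulo primes), `Small` (`p = 2, 3`).
import Fermat.Statements.S16
import Fermat.Agent.S16.Reduce
import Fermat.Agent.S16.Small
import Fermat.Agent.S16.LBFFinal
import Fermat.Agent.S16.UB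

set_option autoImplicit false
open ModularCurve CuspForm
open ModularCurve

namespace Fermat.Agent.S16

theorem result
    (p : ℕ) [Fact p.Prime] :
    Nat.card (↥(heckeLatticeAlgebra p ∅) ⧸
        Ideal.map ((latticeRestrictHom p ∅).toRingHom.comp (heckeEvalForms p 2))
          (eisensteinIdeal p)) =
      eisensteinNumerator p := by
  have hp : p.Prime := Fact.out
  by_cases h5 : 5 ≤ p
  · exact Reduce.card_eq_of_bounds p (LBF.eisCong p h5) (UB.dvd_of_eisCong p h5)
  · have h23 : p = 2 ∨ p = 3 := by
      have h2 := hp.two_le
      have h4 : p ≠ 4 := by
        rintro rfl
        exact absurd hp (by decide)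
      omega
    exact Reduce.card_eq_of_bounds p (Small.eisCong_numerator p h23)
      (Small.dvd_numerator_of_eisCong p h23)

end Fermat.Agent.S16
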