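-- Statement S18: prime-to-ℓ torsion of J₀(N) injects under reduction modulo ℓ ∤ N.
-- Proof (wave 7): `Fermat/Agent/S18/*.lean`; see `S18/Iface.lean` and `S18/Iface2.lean` for the outline.
--   * genus squeeze at an admissible auxiliary level (`S18/TopGS.lean`);
--   * lifting property for relative Riemann–Roch spaces from the squeeze (`S18/TopLift.lean`);
--   * trace descent of the lifting property along a prime-to-ℓ level change (`S18/TopTrace.lean`);
--   * the torsion theorem at level `M` relative to `N` (`S18/TopTorsion.lean`);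
--   * the choice of the auxiliary levels (`S18/TopLevel.lean`).
import Fermat.Statements.S18
import Fermat.Agent.S18.Iface2
import Fermat.Agent.S18.TopGS
import Fermat.Agent.S18.TopLift
import Fermat.Agent.S18.TopTrace
import Fermat.Agent.S18.TopTorsion
import Fermat.Agent.S18.TopLevel

set_option autoImplicit false
open ModularCurve

namespace Fermat.Agent.S18

theorem result (N : ℕ) [NeZero N] {ℓ : ℕ}
    [Fact ℓ.Prime] (hℓN : ¬ ℓ ∣ N) (A : ValuationSubring (AlgebraicClosure ℚ)) (hA : A.LiesOverPrime ℓ)
    (h : ModularCurve.ReductionInputsModL A N) (m : ℕ) (hm : ¬ ℓ ∣ m) (z : ModularCurve.JZero N)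
    (hmz : m • z = 0) (hz : ModularCurve.reductionModL A N z = 0) :
    z = 0 :=
  result_of_iface2 genusSqueezeStmt TopLift.liftOfSqueezeStmtV TopTR.traceDescentStmtV
    torsionOfLiftStmtV levelStmt N hℓN A hA h m hm z hmz hz

end Fermat.Agent.S18
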