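-- Statement S21 (Eichler–Shimura): the pair period map of level N is injective and its image is
-- exactly the space of parabolic homomorphisms Γ₀(N) → ℂ.
-- Proof: Fermat/Agent/S21/*.lean (period map via decaying primitives, joint injectivity by the
-- maximum principle, dim parabolicHoms ≤ 2 * genusFormula by a cocycle count) together with the
-- dimension formula dim S₂(Γ₀(N)) = genusFormula N (Fermat/Agent/S20/Frame/*.lean).
import Fermat.Statements.S21
import Fermat.Agent.S21.UpperBound
import Fermat.Agent.S20.Frame.Final

set_option autoImplicit false
open ModularCurve

namespace Fermat.Agent.S21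

theorem result (N : ℕ) [NeZero N] :
    Function.Injective (ModularCurve.periodHomPair N)
      ∧ LinearMap.range (ModularCurve.periodHomPair N)
          = ModularCurve.Period.parabolicHoms ℂ (CongruenceSubgroup.Gamma0 N) ℂ :=
  result_of_finrank_eq N (Fermat.Agent.S20.Frame.final N)

end Fermat.Agent.S21
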