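-- Statement S22 (row 21): the Hecke algebra of level `Γ₀(N)` and any weight is a finitely
-- generated module over the integers.  Proof: weights `k ≤ 1` carry no cusp forms
-- (`Fermat.Agent.S22.Reduce`); for `k = w + 2 ≥ 2` the coefficients of the Eichler period
-- polynomials span a finitely generated Hecke-stable lattice of functionals separating the
-- points of the space of cusp forms (`Fermat.Agent.S22.PeriodLattice`).
import Fermat.Statements.S22
import Fermat.Agent.S22.Reduce
import Fermat.Agent.S22.PeriodLattice

set_option autoImplicit false
open CuspForm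

namespace Fermat.Agent.S22

theorem result (N : ℕ) [NeZero N] (k : ℤ) (S : Set ℕ) :
    Module.Finite ℤ (CuspForm.heckeAlgebra N k S) := by
  rcases le_or_gt k 1 with hk | hk
  · exact finite_heckeAlgebra_of_forall_eq_zero N k S
      (fun f => cuspForm_eq_zero_of_le_one N k hk f)
  · obtain ⟨w, rfl⟩ : ∃ w : ℕ, k = (w : ℤ) + 2 := ⟨(k - 2).toNat, by omega⟩
    exact finite_heckeAlgebra_of_two_le N w S

end Fermat.Agent.S22
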