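-- Statement S23: `S₂(Γ₀(N))` has an integral structure.
-- Route: Galois conjugation of cusp forms (Lagrange interpolation over the cosets of `Γ₀(N)` in
-- `SL(2,ℤ)` + integrality over level one + division lemma), descent to `ℚ`, and bounded
-- denominators from the finiteness of the Hecke algebra (S22).
import Fermat.Statements.S23
import Fermat.Agent.S22
import Fermat.Agent.S23.Assembly
import Fermat.Agent.S23.Conj

set_option autoImplicit false
open CuspForm

namespace Fermat.Agent.S23

theorem result (N : ℕ) [NeZero N] : CuspForm.HasIntegralStructure N 2 :=
  Fermat.Agent.S23.Assembly.hasIntegralStructure_of_conj (Fermat.Agent.S22.result N 2 ∅)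
    (Fermat.Agent.S23.Conj.exists_conj N)

end Fermat.Agent.S23
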