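import Fermat.Statements.S24
import Fermat.Agent.S24.Main

set_option autoImplicit false
open ModularCurve

namespace Fermat.Agent.S24

theorem result (N : ℕ) [NeZero N]
    [AlgebraicCurve.HasCanonicalDivisor (K := AlgebraicClosure ℚ) (F := ↥(ModularCurve.modularFunctionFieldBar N))] :
    (AlgebraicCurve.genus (AlgebraicClosure ℚ) ↥(ModularCurve.modularFunctionFieldBar N) : ℚ)
      = ModularCurve.genusFormula N := by
  classical
  obtain ⟨ι, -⟩ : ∃ ι : AlgebraicClosure ℚ →+* ℂ, True := by
    letI : Algebra ℚ (AlgebraicClosure ℚ) := AlgebraicClosure.instAlgebra ℚ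
    haveI := AlgebraicClosure.isAlgebraic ℚ
    exact ⟨(IsAlgClosed.lift (R := ℚ) (S := AlgebraicClosure ℚ) (M := ℂ)).toRingHom, trivial⟩
  have hex := (Main.degree_eq_cyc ι N).1
  unfold AlgebraicCurve.genus
  rw [dif_pos hex]
  exact (Main.genus_eq ι N _ hex.choose_spec (AlgebraicCurve.canonicalDivisorOf hex.choose_spec)
    (AlgebraicCurve.canonicalDivisorOf_apply _)).1

end Fermat.Agent.S24
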