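-- Statement S28 (row 27): the special fibre of the Igusa model is integral.
-- The statement below is byte-identical to the frozen statement
-- ModularCurve.IgusaScheme.FermatFrozen.S28 (Fermat/Statements/S28.lean).
-- Assembly: the degree bound over the algebraic closure of F_l (IgusaDeg, with A0Final for the
-- prime-level step), residue independence (MonoLam), the two chart reductions (ValKerLam with
-- ChartBase and LamExtra), and the scheme-theoretic glue (Scheme, Tensor, TensorNT).
import Fermat.Statements.S28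
import Fermat.Agent.S28.Scheme
import Fermat.Agent.S28.Tensor
import Fermat.Agent.S28.TensorNT
import Fermat.Agent.S28.IgusaDeg
import Fermat.Agent.S28.A0Final
import Fermat.Agent.S28.ValKerLam
import Fermat.Agent.S28.ChartBase
import Fermat.Agent.S28.LamExtra
import Fermat.Agent.S28.MonoLam

set_option autoImplicit false
open AlgebraicGeometry CategoryTheory CategoryTheory.Limits ModularCurve ModularCurve.IgusaScheme
noncomputable section
set_option autoImplicit false
open ModularCurve ModularCurve.IgusaScheme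

namespace Fermat.Agent.S28

set_option maxHeartbeats 4000000 in
set_option synthInstance.maxHeartbeats 400000 in
theorem result
    (N : ℕ) [NeZero N] (ℓ : ℕ) [Fact ℓ.Prime] (hℓN : ¬ ℓ ∣ N)
    (K : Type) [Field K] [CharP K ℓ] [Algebra ↥(GaloisRep.ratLocalizedAt ℓ) K] :
    IsIntegral ↑(pullback (igusaTo N ℓ)
      (Spec.map (CommRingCat.ofHom (algebraMap ↥(GaloisRep.ratLocalizedAt ℓ) K)))) := by
  have hdeg := IgusaDeg.psi_le_relrank_of_poly ℓ N hℓN (AlgebraicClosure (ZMod ℓ))
    (fun p _ hp hpN h => A0Final.exists_monic_of_mem (AlgebraicClosure (ZMod ℓ)) ℓ p hp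
      (fun hpℓ => hℓN (hpℓ ▸ hpN)) h)
  obtain ⟨f, hli⟩ := MonoLam.exists_residue_independent' ℓ N hdeg
  obtain ⟨ρF, hρF⟩ := ValKerLam.exists_rho N ℓ (jFull N) (Lam.jFull_mem ℓ N)
    (ChartBase.hsK_fin N) (ChartBase.hnormal_fin ℓ N) (ChartBase.hsat_fin ℓ N)
    (LamExtra.res_mem_adjoin ℓ) f hli
  obtain ⟨ρI, hρI⟩ := ValKerLam.exists_rho N ℓ (jFull N)⁻¹ (Lam.jFull_inv_mem ℓ N)
    (ChartBase.hsK_inf N) (ChartBase.hnormal_inf ℓ N) (ChartBase.hsat_inf ℓ N)
    (LamExtra.res_mem_adjoin ℓ) f hli
  exact Scheme.isIntegral_pullback N ℓ K (Tensor.isDomain_tensor ℓ _ K ρF hρF)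
    (Tensor.isDomain_tensor ℓ _ K ρI hρI)
    (TensorNT.nontrivial_tensorProduct ℓ _ K (Lam.rhoMid ℓ N))

end Fermat.Agent.S28
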