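-- Statement S29 (row 28): `CuspForm.IsNormalizedEigenform.exists_residualGaloisRep_isAttachedTo`.
-- The mod-`p` Galois representation attached to a normalised eigenform of weight two on `Γ₀(N)`.
--
-- Assembly (wave 9).  `Top.result_of_iface` builds the representation from
--  * `[CYC]`  the mod-`p` cyclotomic character (`Cyc.cycStmt`),
--  * `[CHEB]` weak Chebotarev: every element of a finite quotient of `G_ℚ` is a power of a
--             Frobenius element (`Cheb.chebStmt`),
--  * `[GM]`   a nonzero finite-dimensional `G_ℚ`-module on which `σ + ℓ σ⁻¹ = φ(a_ℓ)` for every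
--             Frobenius element `σ` at `ℓ ∤ N p`, obtained (`GalMod.galMod_of_eigenSupport`) from
--  * `[IV]`   the occurrence of the eigensystem of `g` mod `p` in `k ⊗ J₀(N)(ℚ̄)[p]`
--             (`EigSupport.eigenSupportStmt_of_emb`), which follows from the Hecke-equivariant
--             embedding `Λ/pΛ ↪ J₀(N)(ℚ̄)[p]`, `Λ = Hom_par(Γ₀(N), ℤ)` (`Emb.embStmt_of_facts`):
--             existence (Eisenstein series with character, Kummer finiteness, descent from `ℂ` to
--             `ℚ̄`, analytic description of the places), uniqueness, Hecke equivariance, kernel;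
--  and the quadratic-relation lemma `QuadRep.exists_matrix_rep` inside `Top`.
import Fermat.Statements.S29
import Fermat.Agent.S29.Top
import Fermat.Agent.S29.Cyc
import Fermat.Agent.S29.Cheb
import Fermat.Agent.S29.GalMod
import Fermat.Agent.S29.EigSupport
import Fermat.Agent.S29.EmbBridge
import Fermat.Agent.S29.KumExists
import Fermat.Agent.S29.ThetaC
import Fermat.Agent.S29.PlaceAnStmt
import Fermat.Agent.S29.KumFinal
import Fermat.Agent.S29.Desc
import Fermat.Agent.S29.AnCompat
import Fermat.Agent.S29.UniqRB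
import Fermat.Agent.S29.HeckeR
import Fermat.Agent.S29.EmbKer

set_option autoImplicit false
open CuspForm CuspForm.IsNormalizedEigenform

namespace Fermat.Agent.S29

/-- **(E)** every `λ ∈ Λ` is related to a class of `J₀(N)(ℚ̄)`. -/
theorem exStmt : Emb.ExStmt :=
  Emb.exStmt_of_kumExists
    (KumExists.kumExistsStmt_of ThetaC.thetaFnStmt PlaceAn.placeAnStmt KumFin.kumFinStmt
      Desc.descStmt AnCompat.anCompatStmt)

/-- The Hecke-equivariant embedding `Λ/mΛ ↪ J₀(N)(ℚ̄)[m]`, for every `m ≥ 1`. -/
theorem embStmt : Emb.EmbStmt :=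
  Emb.embStmt_of_facts exStmt UniqRB.uniqStmt HeckeR.heckeStmt EmbKer.kerStmt

/-- **[IV]** the eigensystem of `g` mod `p` occurs in `k ⊗ J₀(N)(ℚ̄)[p]`. -/
theorem eigenSupportStmt : EigenSupportStmt :=
  EigSupport.eigenSupportStmt_of_emb embStmt

theorem result
    {N : ℕ} {g : CuspForm (CongruenceSubgroup.Gamma0 N) 2} (hg : g.IsNormalizedEigenform)
    {p : ℕ} (hp : p.Prime) {k : Type} [Field k] [CharP k p]
    (φ : integralClosure ℤ ℂ →+* k) :
    ∃ ρ : ResidualGaloisRep k, ρ.IsAttachedTo g φ ∧
      ∀ ℓ : ℕ, ℓ.Prime → ¬ ℓ ∣ N * p → ρ.IsUnramifiedAt ℓ :=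
  Top.result_of_iface Cyc.cycStmt Cheb.chebStmt
    (GalMod.galMod_of_eigenSupport eigenSupportStmt) hg hp φ

end Fermat.Agent.S29
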