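-- Statement S31 (row 30): the Galois representation of a Hecke datum is unramified outside `S`.
-- Direct finite-level route (trace rigidity): `S31/Top.lean` from the lattice input
-- (`S31/HeckeLat.lean` on the embedding `Emb.EmbStmt` of wave 9a) and weak Chebotarev.
import Fermat.Statements.S31
import Fermat.Agent.S31.Top
import Fermat.Agent.S31.HeckeLat
import Fermat.Agent.S29.Cheb
import Fermat.Agent.S29.ThetaC
import Fermat.Agent.S29.PlaceAnStmt
import Fermat.Agent.S29.KumFinal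
import Fermat.Agent.S29.Desc
import Fermat.Agent.S29.AnCompat
import Fermat.Agent.S29.KumExists
import Fermat.Agent.S29.EmbBridge
import Fermat.Agent.S29.UniqRB
import Fermat.Agent.S29.HeckeR
import Fermat.Agent.S29.EmbKer

set_option autoImplicit false
variable {p : ℕ} {N : ℕ} [NeZero N] {S : Finset ℕ}
  {𝒪 : Type} [CommRing 𝒪] [IsDomain 𝒪] [IsDiscreteValuationRing 𝒪]
  [IsAdicComplete (IsLocalRing.maximalIdeal 𝒪) 𝒪]
  {θ : CuspForm.heckeAlgebra N 2 (↑S : Set ℕ) →+* IsLocalRing.ResidueField 𝒪}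
  {T : Type} [CommRing T] [IsLocalRing T] [IsNoetherianRing T]
  [IsAdicComplete (IsLocalRing.maximalIdeal T) T] [Algebra 𝒪 T] [IsLocalHom (algebraMap 𝒪 T)]
  [Module.Finite 𝒪 T] [Module.Free 𝒪 T]
open CuspForm CuspForm.HeckeGaloisRepDatum

namespace Fermat.Agent.S31

theorem result (hp : p.Prime)
    (hp𝒪 : (p : 𝒪) ∈ IsLocalRing.maximalIdeal 𝒪) (hpS : p ∈ S)
    (hNS : ∀ q : ℕ, q.Prime → q ∣ N → q ∈ S)
    (H : CuspForm.HeckeGaloisRepDatum N (↑S : Set ℕ) 𝒪 θ T)
    (q : ℕ) (hq : q.Prime) (hqS : q ∉ S) :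
    H.ρ.IsUnramifiedAt q :=
  Fermat.Agent.S31.Top.result_of_iface
    (Fermat.Agent.S31.HeckeLat.latticeStmt_of_emb
      (Fermat.Agent.S29.Emb.embStmt_of_facts
        (Fermat.Agent.S29.Emb.exStmt_of_kumExists
          (Fermat.Agent.S29.KumExists.kumExistsStmt_of Fermat.Agent.S29.ThetaC.thetaFnStmt
            Fermat.Agent.S29.PlaceAn.placeAnStmt Fermat.Agent.S29.KumFin.kumFinStmt
            Fermat.Agent.S29.Desc.descStmt Fermat.Agent.S29.AnCompat.anCompatStmt))
        Fermat.Agent.S29.UniqRB.uniqStmt Fermat.Agent.S29.HeckeR.heckeStmt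
        Fermat.Agent.S29.EmbKer.kerStmt))
    Fermat.Agent.S29.Cheb.chebStmt hp hp𝒪 hpS hNS H q hq hqS

end Fermat.Agent.S31
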