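-- Statement S37: the specialization data of `J₀(N)` exist (unramified outside `N p`, and the
-- Eichler–Shimura relation for Frobenius elements on the `p`-power torsion).
-- Proof (wave 8): `Fermat/Agent/S37/*.lean`; see `S37/Iface.lean` for the outline.
--   * formal reduction of the statement to a core statement about an additive map `Red` out of
--     `J₀(N)` (`S37/Top.lean`), assembled from the chains in `S37/Assembly.lean`;
--   * `Red = reductionModL A M ∘ π^*` for an auxiliary level `M` (`S18/TopLevel.lean`), with good
--     reduction at `M` (`S18/TopGS.lean`, tame genus descent `S37/GDLift.lean`);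
--   * Deuring's reduction map on places (`S37/Deuring.lean`);
--   * torsion injectivity: `S18.lean` at level `M` and `S37/PbInj.lean`;
--   * inertia invariance and the Frobenius relation (`S37/GalEq.lean`);
--   * the Eichler–Shimura congruence from the Kronecker norm congruence (`S37/ESB.lean`).
import Fermat.Statements.S37
import Fermat.Agent.S18
import Fermat.Agent.S37.Top
import Fermat.Agent.S37.Assembly
import Fermat.Agent.S37.PbInj
import Fermat.Agent.S37.GDLift
import Fermat.Agent.S37.Deuring
import Fermat.Agent.S37.GalEq
import Fermat.Agent.S37.ESB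

set_option autoImplicit false
open ModularCurve

namespace Fermat.Agent.S37

theorem result (N p : ℕ) [NeZero N] (hcomm : ModularCurve.HeckeOperatorsCommuteBar N) : letI := ModularCurve.heckeModuleBar N; ∀ (_ : SMulCommClass (AlgebraicClosure ℚ ≃ₐ[ℚ] AlgebraicClosure ℚ) ModularCurve.HeckeAlg (ModularCurve.JZero N)), ModularCurve.SpecializationExists (K := ℚ) (L := AlgebraicClosure ℚ) N p (ModularCurve.JZero N) :=
  Top.result_of_redCore N p hcomm
    (redCore_of_iface Fermat.Agent.S18.levelStmt Fermat.Agent.S18.genusSqueezeStmt
      (GDLift.genusDescentStmt_of Deuring.deuringStmt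
        Fermat.Agent.S18.TopLift.liftOfSqueezeStmtV Fermat.Agent.S18.TopTR.traceDescentStmtV)
      Deuring.deuringStmt
      (fun M _ _ _ hℓM A hA h m hm z hmz hz => Fermat.Agent.S18.result M hℓM A hA h m hm z hmz hz)
      PbInj.pbInjStmt GalEq.inertiaStmt (eichlerShimura_of_frobHecke ESB.frobHeckeStmt) N p)

end Fermat.Agent.S37
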