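-- Statement S42 (row 40): `FreyPackage.eigenformResidualAttachmentAtFamily`.
-- Formal corollary of S29 (`Fermat.Agent.S29.result`) via `S42.Top.result_of_S29`: the residual
-- representation of an eigenform, read over `ℤ̄ / 𝔪`, with trace and determinant from the
-- characteristic polynomial, and a number field over which it and the Frey `p`-torsion are fixed.
import Fermat.Statements.S42
import Fermat.Agent.S29
import Fermat.Agent.S42.Top

set_option autoImplicit false
open FreyPackage

namespace Fermat.Agent.S42

theorem result (P : FreyPackage) :
    ∀ M : ℕ, 0 < M → P.EigenformResidualAttachmentAt M :=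
  Top.result_of_S29 (@Fermat.Agent.S29.result) P

end Fermat.Agent.S42
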