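import Fermat.Statements.S49
import Fermat.Agent.S49.Algebra
import Fermat.Agent.S49.Formal
import Fermat.Agent.S49.Forms
import Fermat.Agent.S49.Ideal

set_option autoImplicit false
open CuspForm EisensteinWeightOne CongruenceSubgroup ModularFormClass
open FLT FLT.AbstractIntegralStructure

namespace Fermat.Agent.S49

/-- The weight one Eisenstein series is congruent to `1` modulo `3`. -/
theorem bridgeProduct_coeff_sub (a : ℕ → ℤ) (n : ℕ) :
    (3 : ℤ) ∣ (bridgeProduct a).coeff n - a n := by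
  have he : e1Chi3In ℤ = 1 + PowerSeries.C (3 : ℤ) * PowerSeries.mk
      (fun j => if j = 0 then (0 : ℤ) else 2 * sigmaChi j) := by
    ext j
    simp only [e1Chi3In, e1Chi3, PowerSeries.coeff_map, PowerSeries.coeff_mk, map_add,
      PowerSeries.coeff_one, PowerSeries.coeff_C_mul, Int.coe_castRingHom, Int.cast_id]
    split_ifs <;> ring
  have hb : bridgeProduct a = PowerSeries.mk a + PowerSeries.C (3 : ℤ) * (PowerSeries.mk a *
      PowerSeries.mk (fun j => if j = 0 then (0 : ℤ) else 2 * sigmaChi j)) := by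
    rw [bridgeProduct, he]
    ring
  rw [hb, map_add, PowerSeries.coeff_mk, PowerSeries.coeff_C_mul, add_sub_cancel_left]
  exact dvd_mul_right _ _

theorem chiNegThree_cong (ℓ : ℕ) : ∃ c : ℤ, (ℓ : ℤ) = chiNegThree ℓ + 3 * c := by
  unfold chiNegThree
  refine ⟨((ℓ / 3 : ℕ) : ℤ) + (if ℓ % 3 = 2 then 1 else 0), ?_⟩
  have h := Nat.div_add_mod ℓ 3
  have h3 : ℓ % 3 < 3 := Nat.mod_lt _ (by norm_num)
  split_ifs <;> omega


theorem result
    {N : ℕ} [NeZero N] (h : CuspForm.HasIntegralBasis N) {a : ℕ → ℤ}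
    (heig : FormalHecke.IsEigensystem
      (fun ℓ => if ℓ ∣ N then 0 else ((chiNegThree ℓ : ℤ) : ℤ)) a)
    (hreal : CuspForm.IsLatticeRealized N a) :
    ∃ (f : CuspForm (Gamma0 N) 2) (_ : f.IsNormalizedEigenform)
      (𝔪' : Ideal (integralClosure ℤ ℂ)), 𝔪'.IsMaximal ∧
      ((3 : ℕ) : integralClosure ℤ ℂ) ∈ 𝔪' ∧
      ∀ (ℓ : ℕ) (_ : ℓ.Prime) (_ : ¬ ℓ ∣ N),
        ∃ c : integralClosure ℤ ℂ, (c : ℂ) = ModularFormClass.qCoeff f ℓ ∧
          c - (a ℓ : integralClosure ℤ ℂ) ∈ 𝔪' := by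
  classical
  obtain ⟨f₀, -, af, haf, hdiv⟩ := hreal
  have hcong : ∀ n, ∃ k : ℤ, af n = a n + 3 * k := by
    intro n
    obtain ⟨k₁, hk₁⟩ := hdiv n
    obtain ⟨k₂, hk₂⟩ := bridgeProduct_coeff_sub a n
    exact ⟨k₁ + k₂, by linear_combination hk₁ + hk₂⟩
  -- the Hecke algebra and its tautological action
  let V := CuspForm (Gamma0 N) 2
  let A := CuspForm.heckeAlgebra N 2 ∅
  let ρ : A →+* Module.End ℂ V := (CuspForm.heckeAlgebra N 2 ∅).val.toRingHom
  -- the ideal of operators killing `f₀` modulo 3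
  let I : Ideal A := congIdeal f₀
  have hI3 : ((3 : ℕ) : A) ∈ I := by
    rw [mem_congIdeal]
    intro n
    refine ⟨af n, ?_⟩
    have e0 : (((3 : ℕ) : A) : Module.End ℂ V) = ((3 : ℕ) : Module.End ℂ V) := rfl
    have e1 : (((3 : ℕ) : A) : Module.End ℂ V) f₀ = (3 : ℕ) • f₀ := by
      rw [e0, Module.End.natCast_apply]
    rw [e1, ← qcLin_apply, map_nsmul, qcLin_apply, haf, nsmul_eq_mul]
    norm_num
  have hIT : ∀ (ℓ : ℕ) (hℓ : ℓ.Prime) (hℓN : ¬ ℓ ∣ N),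
      CuspForm.heckeAlgebra.T hℓ hℓN (Set.notMem_empty ℓ) - ((a ℓ : ℤ) : A) ∈ I := by
    intro ℓ hℓ hℓN
    rw [mem_congIdeal]
    intro n
    have e0 : ((CuspForm.heckeAlgebra.T hℓ hℓN (Set.notMem_empty ℓ) - ((a ℓ : ℤ) : A) : A) :
        Module.End ℂ V) = CuspForm.heckeTLin 2 hℓ hℓN - ((a ℓ : ℤ) : Module.End ℂ V) := rfl
    have e1 : ((CuspForm.heckeAlgebra.T hℓ hℓN (Set.notMem_empty ℓ) - ((a ℓ : ℤ) : A) : A) :
        Module.End ℂ V) f₀ = CuspForm.heckeTLin 2 hℓ hℓN f₀ - (a ℓ : ℤ) • f₀ := by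
      rw [e0, LinearMap.sub_apply, Module.End.intCast_apply]
    rw [e1, ← qcLin_apply, map_sub, map_zsmul, qcLin_apply, qcLin_apply, qc_heckeT, ← haf, ← haf,
      zsmul_eq_mul]
    obtain ⟨k₁, hk₁⟩ := hcong (n * ℓ)
    obtain ⟨k₃, hk₃⟩ := hcong n
    obtain ⟨c, hc⟩ := chiNegThree_cong ℓ
    have hE := heig.2 ℓ hℓ n
    simp only [if_neg hℓN] at hE
    rw [mul_comm ℓ n] at hE
    by_cases hd : ℓ ∣ n
    · obtain ⟨k₂, hk₂⟩ := hcong (n / ℓ)
      rw [if_pos hd] at hE ⊢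
      rw [← haf]
      refine ⟨k₁ + c * af (n / ℓ) + chiNegThree ℓ * k₂ - a ℓ * k₃, ?_⟩
      have hZ : af (n * ℓ) + (ℓ : ℤ) * af (n / ℓ) - a ℓ * af n =
          3 * (k₁ + c * af (n / ℓ) + chiNegThree ℓ * k₂ - a ℓ * k₃) := by
        linear_combination hk₁ + (af (n / ℓ)) * hc + chiNegThree ℓ * hk₂ - a ℓ * hk₃ + hE
      exact_mod_cast hZ
    · rw [if_neg hd] at hE ⊢
      rw [← haf]
      refine ⟨k₁ - a ℓ * k₃, ?_⟩
      have hZ : af (n * ℓ) + 0 - a ℓ * af n = 3 * (k₁ - a ℓ * k₃) := by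
        linear_combination hk₁ - a ℓ * hk₃ + hE
      exact_mod_cast hZ
  have haf1 : af 1 ≠ 0 ∧ ∀ m : ℤ, af 1 ≠ 3 * m := by
    obtain ⟨k, hk⟩ := hcong 1
    rw [heig.1] at hk
    constructor
    · omega
    · intro m
      omega
  have hI1 : I ≠ ⊤ := by
    intro htop
    have h1 : (1 : A) ∈ I := htop ▸ Submodule.mem_top
    rw [mem_congIdeal] at h1
    obtain ⟨m, hm⟩ := h1 1
    have e1 : ((1 : A) : Module.End ℂ V) f₀ = f₀ := rfl
    rw [e1, ← haf] at hm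
    exact haf1.2 m (by exact_mod_cast hm)
  obtain ⟨𝔪, h𝔪max, hI𝔪⟩ := Ideal.exists_le_maximal I hI1
  have hfd : FiniteDimensional ℂ V := finiteDimensional_of_hasIntegralBasis h
  have hnt : Nontrivial V := by
    refine ⟨⟨f₀, 0, fun h0 => haf1.1 ?_⟩⟩
    have h1 : qCoeff f₀ 1 = 0 := by
      rw [h0, ← qcLin_apply, map_zero]
    rw [← haf] at h1
    exact_mod_cast h1
  have hprime : 𝔪.IsPrime := h𝔪max.isPrime
  -- the eigenvector
  obtain ⟨v, hv0, hveig, hvann⟩ := exists_eigenvector_ann_le ρ 𝔪 (fun t ht => by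
    have ht0 : t = 0 := Subtype.ext ht
    rw [ht0]
    exact 𝔪.zero_mem)
  obtain ⟨χ, hχ⟩ := exists_character_of_eigenvector ρ v hv0 hveig
  have hint : ∀ t, IsIntegral ℤ (χ t) :=
    isIntegral_character ρ (CuspForm.intLattice N 2) (CuspForm.intLattice_fg N 2)
      (span_intLattice_eq_top h)
      (fun t x hx => CuspForm.mem_intLattice_of_mem_heckeAlgebra (by norm_num) t.2 hx) χ v hv0 hχ
  obtain ⟨𝔪', h𝔪'max, h𝔪'⟩ := exists_maximal_over χ hint 𝔪
    (fun t ht => hvann t (by rw [hχ, ht, zero_smul]))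
  -- q-coefficient relations for the eigenvector
  have hrelT : ∀ (ℓ : ℕ) (hℓ : ℓ.Prime) (hℓN : ¬ ℓ ∣ N) (n : ℕ),
      qCoeff v (ℓ * n) + (ℓ : ℂ) * (if ℓ ∣ n then qCoeff v (n / ℓ) else 0) =
        χ (CuspForm.heckeAlgebra.T hℓ hℓN (Set.notMem_empty ℓ)) * qCoeff v n := by
    intro ℓ hℓ hℓN n
    have h1 := hχ (CuspForm.heckeAlgebra.T hℓ hℓN (Set.notMem_empty ℓ))
    have h2 : ρ (CuspForm.heckeAlgebra.T hℓ hℓN (Set.notMem_empty ℓ)) v =
        CuspForm.heckeTLin 2 hℓ hℓN v := rfl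
    rw [h2] at h1
    have h3 : qCoeff (⇑(CuspForm.heckeTLin 2 hℓ hℓN v)) n =
        qCoeff (⇑(χ (CuspForm.heckeAlgebra.T hℓ hℓN (Set.notMem_empty ℓ)) • v)) n := by rw [h1]
    rw [qc_heckeT, qc_smul] at h3
    rw [mul_comm ℓ n, ← h3, mul_ite, mul_zero]
  have hrelU : ∀ (q : ℕ) (hq : q.Prime) (hqN : q ∣ N) (n : ℕ),
      qCoeff v (q * n) =
        χ (CuspForm.heckeAlgebra.U hq hqN (Set.notMem_empty q)) * qCoeff v n := by
    intro q hq hqN n
    have h1 := hχ (CuspForm.heckeAlgebra.U hq hqN (Set.notMem_empty q))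
    have h2 : ρ (CuspForm.heckeAlgebra.U hq hqN (Set.notMem_empty q)) v =
        CuspForm.heckeULin 2 hqN v := rfl
    rw [h2] at h1
    have h3 : qCoeff (⇑(CuspForm.heckeULin 2 hqN v)) n =
        qCoeff (⇑(χ (CuspForm.heckeAlgebra.U hq hqN (Set.notMem_empty q)) • v)) n := by rw [h1]
    rw [qc_heckeU hq, qc_smul] at h3
    rw [mul_comm q n, h3]
  let e : ℕ → ℂ := fun ℓ => if ℓ ∣ N then 0 else (ℓ : ℂ)
  let lam : ℕ → ℂ := fun ℓ =>
    if hℓ : ℓ.Prime then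
      (if hℓN : ℓ ∣ N then χ (CuspForm.heckeAlgebra.U hℓ hℓN (Set.notMem_empty ℓ))
        else χ (CuspForm.heckeAlgebra.T hℓ hℓN (Set.notMem_empty ℓ)))
    else 0
  have hrel : ∀ ℓ : ℕ, ℓ.Prime → ∀ n : ℕ,
      qCoeff v (ℓ * n) + e ℓ * (if ℓ ∣ n then qCoeff v (n / ℓ) else 0) = lam ℓ * qCoeff v n := by
    intro ℓ hℓ n
    by_cases hℓN : ℓ ∣ N
    · simp only [e, lam, dif_pos hℓ, dif_pos hℓN, if_pos hℓN, zero_mul, add_zero]
      exact hrelU ℓ hℓ hℓN n
    · simp only [e, lam, dif_pos hℓ, dif_neg hℓN, if_neg hℓN]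
      exact hrelT ℓ hℓ hℓN n
  have hb1 : qCoeff v 1 ≠ 0 := by
    intro hb1
    have hall : ∀ n, qCoeff v n = 0 := by
      intro n
      induction n using Nat.strong_induction_on with
      | _ n ih =>
        rcases Nat.lt_or_ge n 2 with hn | hn
        · interval_cases n
          · exact qc_zero v
          · exact hb1
        · have hℓp : n.minFac.Prime := Nat.minFac_prime (by omega)
          obtain ⟨m', hm'⟩ := Nat.minFac_dvd n
          have hm'pos : 0 < m' := by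
            rcases Nat.eq_zero_or_pos m' with h0 | h0
            · subst h0
              omega
            · exact h0
          have hm'lt : m' < n := by
            have h2 := hℓp.one_lt
            calc m' = 1 * m' := (one_mul _).symm
              _ < n.minFac * m' := Nat.mul_lt_mul_of_pos_right h2 hm'pos
              _ = n := hm'.symm
          have e1 := hrel _ hℓp m'
          rw [← hm', ih m' hm'lt, mul_zero] at e1
          have e2 : (if n.minFac ∣ m' then qCoeff v (m' / n.minFac) else 0) = 0 := by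
            split_ifs with hd
            · exact ih _ (lt_of_le_of_lt (Nat.div_le_self _ _) hm'lt)
            · rfl
          rw [e2, mul_zero, add_zero] at e1
          exact e1
    exact hv0 (eq_zero_of_qc v hall)
  -- the normalised eigenform
  let g : V := (qCoeff v 1)⁻¹ • v
  have hgc : ∀ n, qCoeff g n = (qCoeff v 1)⁻¹ * qCoeff v n := fun n => qc_smul _ _ _
  have hg1 : qCoeff g 1 = 1 := by rw [hgc, inv_mul_cancel₀ hb1]
  have hgrel : ∀ ℓ : ℕ, ℓ.Prime → ∀ n : ℕ,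
      qCoeff g (ℓ * n) + e ℓ * (if ℓ ∣ n then qCoeff g (n / ℓ) else 0) = lam ℓ * qCoeff g n := by
    intro ℓ hℓ n
    have h1 := hrel ℓ hℓ n
    simp only [hgc]
    split_ifs at h1 ⊢ <;> linear_combination (qCoeff v 1)⁻¹ * h1
  have hlam : ∀ ℓ : ℕ, ℓ.Prime → lam ℓ = qCoeff g ℓ := by
    intro ℓ hℓ
    have h1 := hgrel ℓ hℓ 1
    have hnd : ¬ ℓ ∣ 1 := fun hd => hℓ.one_lt.ne' (Nat.dvd_one.mp hd)
    rw [mul_one, if_neg hnd, mul_zero, add_zero, hg1, mul_one] at h1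
    exact h1.symm
  have hgeig : FormalHecke.IsEigensystem e (fun n => qCoeff g n) :=
    ⟨hg1, fun ℓ hℓ n => by
      have h1 := hgrel ℓ hℓ n
      rw [hlam ℓ hℓ] at h1
      exact h1⟩
  have hnorm : g.IsNormalizedEigenform :=
    { qCoeff_one := hg1
      qCoeff_mul_of_coprime := isEigensystem_mul_of_coprime hgeig
      qCoeff_prime_pow_of_not_dvd := fun p r hp hpN => by
        have h1 := isEigensystem_prime_pow hgeig p r hp
        simpa only [e, if_neg hpN] using h1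
      qCoeff_prime_pow_of_dvd := fun p r hp hpN => by
        have h1 := isEigensystem_prime_pow hgeig p r hp
        simpa only [e, if_pos hpN, zero_mul, sub_zero] using h1 }
  refine ⟨g, hnorm, 𝔪', h𝔪'max, ?_, ?_⟩
  · exact h𝔪' _ (hI𝔪 hI3) _ (by rw [map_natCast]; rfl)
  · intro ℓ hℓ hℓN
    refine ⟨⟨χ (CuspForm.heckeAlgebra.T hℓ hℓN (Set.notMem_empty ℓ)), hint _⟩, ?_, ?_⟩
    · rw [← hlam ℓ hℓ]
      simp only [lam, dif_pos hℓ, dif_neg hℓN]
    · exact h𝔪' _ (hI𝔪 (hIT ℓ hℓ hℓN)) _ (by simp)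

end Fermat.Agent.S49
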