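import Fermat.Statements.S51
import Fermat.Agent.S51.Core
import Fermat.Agent.S51.Descent
import Fermat.Agent.S51.TorsionFinal

set_option autoImplicit false
open WeierstrassCurve WeierstrassCurve.Affine WeierstrassCurve.Affine.Point
open CuspForm ModularFormClass UpperHalfPlane
open WeierstrassCurve

namespace Fermat.Agent.S51

theorem result (W : WeierstrassCurve ℤ) (hΔ : W.Δ ≠ 0) (hW : W.IsSemistableModel) : W.ModRepIsIrreducible 3 ∨ W.ModRepIsIrreducible 5 := by
  by_contra hcon
  rw [not_or] at hcon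
  obtain ⟨x, hx⟩ := Fermat.Agent.S51.Torsion.L3 W hΔ hcon.1
  obtain ⟨s, t, hd, hU, hV⟩ := Fermat.Agent.S51.Torsion.L5 W hΔ hcon.2
  have h5 : (5 : ℤ) ∣ W.Δ → ¬ (5 : ℤ) ∣ W.c₄ := by
    have := hW 5 Nat.prime_five
    exact_mod_cast this
  exact Fermat.Agent.S51.rational_core W hΔ h5 x s t hx hd hU hV
    Fermat.Agent.S51.Descent.rational_points_x

end Fermat.Agent.S51
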