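import Fermat.Statements.S54
import Fermat.Agent.S54.Frobenius

set_option autoImplicit false
open GaloisRep GaloisRep.DeformationRingData

namespace Fermat.Agent.S54

/-- Existence of a Frobenius pair at every prime `ℓ` for the absolute Galois group of `ℚ`, in
the exact form used by the prelude. -/
theorem exists_frobenius_pair {ℓ : ℕ} (hℓ : ℓ.Prime) :
    ∃ (A : ValuationSubring (AlgebraicClosure ℚ))
      (σ : AlgebraicClosure ℚ ≃ₐ[ℚ] AlgebraicClosure ℚ),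
      A.LiesOverPrime ℓ ∧ A.IsFrobeniusAt σ ℓ := by
  obtain ⟨A, hA⟩ := exists_liesOverPrime (AlgebraicClosure ℚ) hℓ
  have hcl : IsAlgClosure ℚ (AlgebraicClosure ℚ) := AlgebraicClosure.instIsAlgClosure ℚ
  obtain ⟨σ, hσ⟩ := exists_isFrobeniusAt A hℓ hA
  exact ⟨A, σ, hA, hσ⟩

theorem result {𝒪 : Type} [CommRing 𝒪] [IsDomain 𝒪] [IsDiscreteValuationRing 𝒪] [IsAdicComplete (IsLocalRing.maximalIdeal 𝒪) 𝒪] {ρbar : ResidualGaloisRep (IsLocalRing.ResidueField 𝒪)} {𝒟 : ∀ ⦃A : Type⦄ [CommRing A] [IsLocalRing A] [Algebra 𝒪 A], GaloisRepAdic A → Prop} (D : GaloisRep.DeformationRingData 𝒪 ρbar 𝒟) {N : ℕ} [NeZero N] {S : Set ℕ} {θ : CuspForm.heckeAlgebra N 2 S →+* IsLocalRing.ResidueField 𝒪} {T : Type} [CommRing T] [IsLocalRing T] [IsNoetherianRing T] [IsAdicComplete (IsLocalRing.maximalIdeal T) T] [Algebra 𝒪 T] [IsLocalHom (algebraMap 𝒪 T)] [Module.Finite 𝒪 T] [Module.Free 𝒪 T] (H : CuspForm.HeckeGaloisRepDatum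 N S 𝒪 θ T) (hS : ∀ q : ℕ, q.Prime → q ∣ N → q ∈ S) (h𝒟 : 𝒟 H.ρ) (hres : H.ρ.residual.IsEquiv (ρbar.baseChangeAlong (IsLocalRing.ResidueField.map (algebraMap 𝒪 T)))) : ∃ φ : D.R →ₐ[𝒪] T, Function.Surjective φ ∧ ∃ hφ : IsLocalHom (φ : D.R →+* T), (D.ρ.baseChangeAlong (φ : D.R →+* T) hφ).IsEquiv H.ρ := by
  obtain ⟨φ, ⟨hφ, hequiv⟩, -⟩ := D.universal T H.residue_surjective H.ρ h𝒟 hres
  refine ⟨φ, ?_, hφ, hequiv⟩
  obtain ⟨e⟩ := hequiv
  -- the Hecke operators `T_ℓ` land in the range of `φ`, being traces of Frobenius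
  have hT : ∀ (ℓ : ℕ) (hℓ : ℓ.Prime) (hℓN : ¬ ℓ ∣ N) (hℓS : ℓ ∉ S),
      H.π (CuspForm.heckeAlgebra.T hℓ hℓN hℓS) ∈ φ.range := by
    intro ℓ hℓ hℓN hℓS
    obtain ⟨A, σ, hA, hσ⟩ := exists_frobenius_pair hℓ
    have h1 := H.charpoly_frob ℓ hℓ hℓN hℓS A hA σ hσ
    have h2 : LinearMap.charpoly (H.ρ.ρ σ) =
        LinearMap.charpoly ((D.ρ.baseChangeAlong (φ : D.R →+* T) hφ).ρ σ) := by
      have h3 : H.ρ.ρ σ = e.toLinearEquiv.conj ((D.ρ.baseChangeAlong (φ : D.R →+* T) hφ).ρ σ) := by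
        ext x
        rw [LinearEquiv.conj_apply_apply, e.map_apply, LinearEquiv.apply_symm_apply]
      rw [h3, LinearEquiv.charpoly_conj]
    have h4 : LinearMap.charpoly ((D.ρ.baseChangeAlong (φ : D.R →+* T) hφ).ρ σ) =
        (LinearMap.charpoly (D.ρ.ρ σ)).map (φ : D.R →+* T) := by
      let _ : Algebra D.R T := (φ : D.R →+* T).toAlgebra
      exact LinearMap.charpoly_baseChange (D.ρ.ρ σ) T
    have h5 := congrArg (fun p => Polynomial.coeff p 1) (h1.symm.trans (h2.trans h4))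
    simp only [Polynomial.coeff_add, Polynomial.coeff_sub, Polynomial.coeff_X_pow,
      Polynomial.coeff_C_mul, Polynomial.coeff_X_one, Polynomial.coeff_C, Polynomial.coeff_map]
      at h5
    norm_num at h5
    have h6 : H.π (CuspForm.heckeAlgebra.T hℓ hℓN hℓS) =
        -(φ ((LinearMap.charpoly (D.ρ.ρ σ)).coeff 1)) := by
      rw [← h5, neg_neg]
    exact ⟨-(LinearMap.charpoly (D.ρ.ρ σ)).coeff 1, by rw [map_neg]; exact h6.symm⟩
  -- hence the whole image of the Hecke algebra does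
  have hrange : ∀ (x : Module.End ℂ (CuspForm (CongruenceSubgroup.Gamma0 N) 2))
      (hx : x ∈ CuspForm.heckeAlgebra N 2 S), H.π ⟨x, hx⟩ ∈ φ.range := by
    intro x hx
    refine Algebra.adjoin_induction
      (p := fun x (hx : x ∈ Algebra.adjoin ℤ (CuspForm.heckeGenerators N 2 S)) =>
        H.π ⟨x, hx⟩ ∈ φ.range) ?_ ?_ ?_ ?_ hx
    · rintro x (⟨ℓ, hℓ, hℓN, hℓS, rfl⟩ | ⟨q, hqN, hq, hqS, rfl⟩)
      · exact hT ℓ hℓ hℓN hℓS
      · exact absurd (hS q hq hqN) hqS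
    · intro r
      have h1 : (⟨algebraMap ℤ _ r, Subalgebra.algebraMap_mem _ r⟩ : CuspForm.heckeAlgebra N 2 S) =
          ((r : ℤ) : CuspForm.heckeAlgebra N 2 S) := by
        apply Subtype.ext
        simp
      rw [h1, map_intCast]
      exact ⟨(r : D.R), map_intCast φ r⟩
    · intro x y hx hy hpx hpy
      have h1 : (⟨x + y, add_mem hx hy⟩ : CuspForm.heckeAlgebra N 2 S) = ⟨x, hx⟩ + ⟨y, hy⟩ := rfl
      rw [h1, map_add]
      exact add_mem hpx hpy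
    · intro x y hx hy hpx hpy
      have h1 : (⟨x * y, mul_mem hx hy⟩ : CuspForm.heckeAlgebra N 2 S) = ⟨x, hx⟩ * ⟨y, hy⟩ := rfl
      rw [h1, map_mul]
      exact mul_mem hpx hpy
  have htop : Algebra.adjoin 𝒪 (Set.range H.π) ≤ φ.range :=
    Algebra.adjoin_le (by rintro _ ⟨t, rfl⟩; exact hrange t.1 t.2)
  rw [H.adjoin_range_π] at htop
  intro y
  exact htop Algebra.mem_top

end Fermat.Agent.S54
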