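import Fermat.Statements.S57
import Fermat.Agent.S57.MCMFree
import Fermat.Agent.S57.PowerSeries

set_option autoImplicit false
set_option linter.style.haveILetI false
open Algebra Algebra.PatchingLevel

namespace Fermat.Agent.S57

open RingTheory.Sequence

theorem result
    {𝒪 : Type} [CommRing 𝒪] [IsDomain 𝒪] [IsDiscreteValuationRing 𝒪]
    {r : ℕ} {R : Type} [CommRing R] [Algebra 𝒪 R]
    {M : Type} [AddCommGroup M] [Module R M] [Nontrivial M]
    (L : Algebra.PatchingLevel 𝒪 r R M ⊥) :
    Module.Free R M ∧ Module.annihilator R M = ⊥ ∧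
      RingHom.ker L.ψ = Ideal.span (Set.range fun i : Fin r => L.φ (MvPowerSeries.X i)) := by
  classical
  -- a uniformizer
  obtain ⟨ϖ, hϖ⟩ := IsDiscreteValuationRing.exists_irreducible 𝒪
  have hmax : IsLocalRing.maximalIdeal 𝒪 = Ideal.span {ϖ} := hϖ.maximalIdeal_eq
  have hϖ0 : ϖ ≠ 0 := hϖ.ne_zero
  haveI : Nontrivial L.N := L.π_surjective.nontrivial
  haveI : Nontrivial R := Module.nontrivial R M
  -- `N` is finite over the power series ring
  haveI : Module.Finite (MvPowerSeries (Fin r) 𝒪) L.N := by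
    refine ⟨⟨Finset.univ.image L.b, ?_⟩⟩
    rw [_root_.eq_top_iff]
    intro x _
    obtain ⟨c, rfl⟩ := L.b_span x
    exact Submodule.sum_mem _ fun i _ =>
      Submodule.smul_mem _ _ (Submodule.subset_span (by simp))
  -- the `φ`-semilinear additive equivalence `S ^ d ≃ N`
  let Φ₀ : (Fin L.d → MvPowerSeries (Fin r) 𝒪) →+ L.N :=
    { toFun := fun c => ∑ i, L.φ (c i) • L.b i
      map_zero' := by simp
      map_add' := by
        intro c c'
        simp [add_smul, Finset.sum_add_distrib] }
  have hΦ₀ : Function.Bijective Φ₀ := by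
    constructor
    · rw [injective_iff_map_eq_zero]
      intro c hc
      have h1 := (L.b_rel c).mp hc
      funext i
      simpa using h1 i
    · intro x
      obtain ⟨c, hc⟩ := L.b_span x
      exact ⟨c, hc.symm⟩
  let Φ : (Fin L.d → MvPowerSeries (Fin r) 𝒪) ≃+ L.N := AddEquiv.ofBijective Φ₀ hΦ₀
  have hΦ : ∀ (s : MvPowerSeries (Fin r) 𝒪) (c : Fin L.d → MvPowerSeries (Fin r) 𝒪),
      Φ (s • c) = L.φ s • Φ c := by
    intro s c
    simp [Φ, Φ₀, Finset.smul_sum, mul_smul]
  -- the regular sequence
  let rsS : List (MvPowerSeries (Fin r) 𝒪) :=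
    (List.finRange r).map MvPowerSeries.X ++ [MvPowerSeries.C ϖ]
  have hregS : IsWeaklyRegular (MvPowerSeries (Fin r) 𝒪) rsS :=
    isWeaklyRegular_X_C _ (List.nodup_finRange r)
      (fun b hb => (mul_eq_zero.mp hb).resolve_left hϖ0)
  have hregSd : IsWeaklyRegular (Fin L.d → MvPowerSeries (Fin r) 𝒪) rsS :=
    (LinearEquiv.isWeaklyRegular_congr
      (TensorProduct.rid (MvPowerSeries (Fin r) 𝒪) (Fin L.d → MvPowerSeries (Fin r) 𝒪)) rsS).mp
      (hregS.isWeaklyRegular_lTensor (M₂ := Fin L.d → MvPowerSeries (Fin r) 𝒪))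
  have hregN : IsWeaklyRegular L.N (rsS.map L.φ) :=
    (AddEquiv.isWeaklyRegular_congr (e := Φ) (List.forall₂_map_right_iff.mpr
      (List.forall₂_same.mpr fun s _ c => hΦ s c))).mp hregSd
  have hmem : ∀ s ∈ rsS.map L.φ, s ∈ IsLocalRing.maximalIdeal (MvPowerSeries (Fin r) 𝒪) := by
    intro s hs
    simp only [rsS, List.map_append, List.map_map, List.mem_append, List.mem_map,
      List.mem_finRange, true_and, List.map_cons, List.map_nil, List.mem_singleton,
      Function.comp_apply] at hs
    rcases hs with ⟨i, rfl⟩ | rfl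
    · intro hu
      have h1 := hu.map L.ψ
      rw [L.ψ_φ_X i] at h1
      exact not_isUnit_zero h1
    · have h1 : L.φ (MvPowerSeries.C ϖ) = MvPowerSeries.C ϖ := L.φ.commutes ϖ
      rw [h1, IsLocalRing.mem_maximalIdeal, mem_nonunits_iff,
        MvPowerSeries.isUnit_iff_constantCoeff, MvPowerSeries.constantCoeff_C]
      exact hϖ.not_isUnit
  have hregN' : IsRegular L.N (rsS.map L.φ) :=
    IsRegular.of_isWeaklyRegular_of_mem_maximalIdeal _ hmem hregN
  have hfree : Module.Free (MvPowerSeries (Fin r) 𝒪) L.N :=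
    free_of_isRegular (r + 1) (MvPowerSeries (Fin r) 𝒪) L.N
      (by simpa using exists_generators_maximalIdeal (σ := Fin r) hmax)
      ⟨rsS.map L.φ, by simp [rsS], hmem, hregN'⟩
  -- a basis of `N` over the power series ring
  let ι := Module.Free.ChooseBasisIndex (MvPowerSeries (Fin r) 𝒪) L.N
  let e : Module.Basis ι (MvPowerSeries (Fin r) 𝒪) L.N := Module.Free.chooseBasis _ _
  haveI : Fintype ι := inferInstance
  haveI : Nonempty ι := e.index_nonempty
  have hIker : Ideal.span (Set.range fun i : Fin r => L.φ (MvPowerSeries.X i)) ≤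
      RingHom.ker L.ψ := by
    rw [Ideal.span_le]
    rintro _ ⟨i, rfl⟩
    exact L.ψ_φ_X i
  -- coordinates of elements of the kernel of `π` lie in the ideal
  have hK : ∀ x : L.N, L.π x = 0 → ∀ j, e.repr x j ∈
      Ideal.span (Set.range fun i : Fin r => L.φ (MvPowerSeries.X i)) := by
    intro x hx j
    have hx' := (L.ker_π x).mp hx
    refine Submodule.smul_induction_on hx' ?_ ?_
    · intro s hs n _
      simp only [map_smul, Finsupp.smul_apply, smul_eq_mul]
      exact Ideal.mul_mem_right _ _ hs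
    · intro x y hx hy
      simp only [map_add, Finsupp.add_apply]
      exact Ideal.add_mem _ hx hy
  have hker : RingHom.ker L.ψ =
      Ideal.span (Set.range fun i : Fin r => L.φ (MvPowerSeries.X i)) := by
    refine le_antisymm ?_ hIker
    intro s hs
    obtain ⟨j⟩ := ‹Nonempty ι›
    have h1 : L.π (s • e j) = 0 := by
      rw [L.π_smul, (RingHom.mem_ker).mp hs, zero_smul]
    have h2 := hK _ h1 j
    simpa using h2
  -- the induced basis of `M`
  let v : ι → M := fun j => L.π (e j)
  have hπsum : ∀ a : ι → MvPowerSeries (Fin r) 𝒪,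
      L.π (∑ j, a j • e j) = ∑ j, L.ψ (a j) • v j := by
    intro a
    rw [map_sum]
    exact Finset.sum_congr rfl fun j _ => L.π_smul _ _
  have hli : LinearIndependent R v := by
    rw [Fintype.linearIndependent_iff]
    intro g hg j
    choose a ha using fun j => L.ψ_surjective (g j)
    have h1 : L.π (∑ j, a j • e j) = 0 := by
      rw [hπsum]
      simpa [ha] using hg
    have h2 := hK _ h1 j
    have h3 : e.repr (∑ j, a j • e j) j = a j := by
      rw [e.repr_sum_self]
    rw [h3] at h2
    rw [← ha j]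
    exact hIker h2
  have hsp : ⊤ ≤ Submodule.span R (Set.range v) := by
    intro y _
    obtain ⟨x, rfl⟩ := L.π_surjective y
    rw [← e.sum_repr x, hπsum]
    exact Submodule.sum_mem _ fun j _ =>
      Submodule.smul_mem _ _ (Submodule.subset_span ⟨j, rfl⟩)
  have hMfree : Module.Free R M := Module.Free.of_basis (Module.Basis.mk hli hsp)
  refine ⟨hMfree, ?_, hker⟩
  exact Module.annihilator_eq_bot.mpr inferInstance

end Fermat.Agent.S57
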